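/-
S43lib / IA / Dim (helper1).

Dimension-theoretic lemmas for the abstract Ihara-avoidance argument:

* `ringKrullDim_le_of_injective_of_isIntegral`: an injective integral extension does not lower the
  Krull dimension (going up);
* `isIntegral_quotient_annihilator`: if a module `M` over an `S`-algebra `P` is finite over `S`,
  then `P ⧸ Ann_P(M)` is integral over `S` (Cayley–Hamilton);
* `annihilator_eq_bot_of_ringKrullDim_le`: if moreover `P` and `S` are domains, `M` is a faithful
  `S`-module and `dim P ≤ dim S < ∞`, then `M` is a faithful `P`-module.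
-/
import Mathlib

set_option autoImplicit false

namespace Fermat.Agent.S43lib.IA

open Ideal

section GoingUp

variable {S T : Type*} [CommRing S] [CommRing T] [Algebra S T]

/-- An injective integral extension does not lower the Krull dimension. -/
theorem ringKrullDim_le_of_injective_of_isIntegral [Algebra.IsIntegral S T]
    (hinj : Function.Injective (algebraMap S T)) : ringKrullDim S ≤ ringKrullDim T := by
  unfold ringKrullDim
  refine iSup_le fun l => ?_
  -- a prime of `T` over the head of the chain
  obtain ⟨Q, -, hQ, hQl⟩ := Ideal.exists_ideal_over_prime_of_isIntegral (R := S) (S := T)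
    (RelSeries.head l).asIdeal (⊥ : Ideal T) (by
      rw [← RingHom.ker_eq_comap_bot, (RingHom.injective_iff_ker_eq_bot _).mp hinj]
      exact bot_le)
  have : Q.IsPrime := hQ
  have : Q.LiesOver (RelSeries.head l).asIdeal := ⟨hQl.symm⟩
  obtain ⟨L, hlen, -, -⟩ := Ideal.exists_ltSeries_of_hasGoingUp (R := S) (S := T) l Q
  calc (l.length : WithBot ℕ∞) = (L.length : WithBot ℕ∞) := by rw [hlen]
    _ ≤ Order.krullDim (PrimeSpectrum T) := Order.LTSeries.length_le_krullDim L

end GoingUp

section Annihilator

variable {S P M : Type*} [CommRing S] [CommRing P] [Algebra S P] [AddCommGroup M] [Module S M]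
  [Module P M] [IsScalarTower S P M]

/-- Cayley–Hamilton: every element of `P` satisfies, modulo the annihilator of `M`, a monic
polynomial with coefficients in `S`, as soon as `M` is a finite `S`-module. -/
theorem exists_monic_aeval_mem_annihilator [Module.Finite S M] (t : P) :
    ∃ p : Polynomial S, p.Monic ∧ Polynomial.aeval t p ∈ Module.annihilator P M := by
  obtain ⟨p, hp, hp0⟩ := LinearMap.exists_monic_and_aeval_eq_zero S (Algebra.lsmul S S M t)
  refine ⟨p, hp, ?_⟩
  rw [Module.mem_annihilator]
  intro m
  have h1 : Polynomial.aeval (Algebra.lsmul S S M t) p = Algebra.lsmul S S M (Polynomial.aeval t p) :=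
    (Polynomial.aeval_algHom_apply (Algebra.lsmul S S M) t p)
  have h2 := congrArg (fun f : Module.End S M => f m) hp0
  simp only [h1, LinearMap.zero_apply] at h2
  simpa using h2

instance isIntegral_quotient_annihilator [Module.Finite S M] :
    Algebra.IsIntegral S (P ⧸ Module.annihilator P M) := by
  refine ⟨fun x => ?_⟩
  obtain ⟨t, rfl⟩ := Ideal.Quotient.mk_surjective x
  obtain ⟨p, hp, hpt⟩ := exists_monic_aeval_mem_annihilator (S := S) (P := P) (M := M) t
  refine ⟨p, hp, ?_⟩
  have : Polynomial.eval₂ (algebraMap S (P ⧸ Module.annihilator P M))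
      (Ideal.Quotient.mk (Module.annihilator P M) t) p
      = Ideal.Quotient.mk (Module.annihilator P M) (Polynomial.aeval t p) := by
    rw [Polynomial.aeval_def, Polynomial.hom_eval₂]
    rfl
  rw [this, Ideal.Quotient.eq_zero_iff_mem]
  exact hpt

/-- If `S` acts faithfully on `M`, then `S → P ⧸ Ann_P(M)` is injective. -/
theorem injective_algebraMap_quotient_annihilator [FaithfulSMul S M] :
    Function.Injective (algebraMap S (P ⧸ Module.annihilator P M)) := by
  rw [injective_iff_map_eq_zero]
  intro s hs
  have hs' : algebraMap S P s ∈ Module.annihilator P M := by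
    rw [← Ideal.Quotient.eq_zero_iff_mem]
    exact hs
  rw [Module.mem_annihilator] at hs'
  have : ∀ m : M, s • m = (0 : S) • m := by
    intro m
    rw [zero_smul, ← hs' m, algebraMap_smul]
  exact FaithfulSMul.eq_of_smul_eq_smul this

/-- **Faithfulness from the numerical coincidence.**  Let `P` be a domain which is an algebra over
a ring `S` of finite Krull dimension with `dim P ≤ dim S`, and let `M` be a `P`-module which is
finite and faithful over `S`.  Then `M` is a faithful `P`-module. -/
theorem annihilator_eq_bot_of_ringKrullDim_le [IsDomain P] [Module.Finite S M] [FaithfulSMul S M]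
    (hS : ringKrullDim S ≠ ⊤) (hS' : ringKrullDim S ≠ ⊥)
    (hdim : ringKrullDim P ≤ ringKrullDim S) :
    Module.annihilator P M = ⊥ := by
  by_contra hne
  obtain ⟨j, hj, hj0⟩ := Submodule.exists_mem_ne_zero_of_ne_bot hne
  have h1 : ringKrullDim S ≤ ringKrullDim (P ⧸ Module.annihilator P M) :=
    ringKrullDim_le_of_injective_of_isIntegral
      (injective_algebraMap_quotient_annihilator (S := S) (P := P) (M := M))
  have h2 : ringKrullDim (P ⧸ Module.annihilator P M) ≤ ringKrullDim (P ⧸ Ideal.span {j}) :=
    ringKrullDim_le_of_surjective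
      (Ideal.Quotient.factor (Ideal.span_singleton_le_iff_mem _ |>.mpr hj))
      (Ideal.Quotient.factor_surjective _)
  have h3 : ringKrullDim (P ⧸ Ideal.span {j}) + 1 ≤ ringKrullDim P :=
    ringKrullDim_quotient_succ_le_of_nonZeroDivisor (mem_nonZeroDivisors_of_ne_zero hj0)
  have h4 : ringKrullDim S + 1 ≤ ringKrullDim S :=
    (add_le_add_left (h1.trans h2) 1).trans (h3.trans hdim)
  -- contradiction with finiteness of the dimension
  obtain ⟨n, hn⟩ : ∃ n : ℕ, ringKrullDim S = n := by
    cases h : ringKrullDim S using WithBot.recBotCoe with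
    | bot => exact absurd h hS'
    | coe a =>
      cases a using ENat.recTopCoe with
      | top => exact absurd h hS
      | coe n => exact ⟨n, rfl⟩
  rw [hn] at h4
  have : ((n + 1 : ℕ) : WithBot ℕ∞) ≤ (n : WithBot ℕ∞) := by exact_mod_cast h4
  have : (n + 1 : ℕ) ≤ n := by exact_mod_cast this
  omega

end Annihilator

end Fermat.Agent.S43lib.IA
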