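/-
S43lib / IA / Abstract (helper1).

**The abstract Ihara-avoidance support theorem** (Taylor's trick, in the form needed for S43).

Data: a domain `S` (the ring `S_∞ = 𝒪⟦y₁,…,y_m⟧` of patching variables), an element `ϖ : S`
(the uniformiser), two `S`-algebras `PA`, `PB` (power series rings over the local framed deformation
rings of type `χ` resp. of unipotent type at `q`), and modules `MA`, `MB` (the patched modules)
which are finite free over `S` and on which `S` acts through `PA` resp. `PB`.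

Hypotheses:
* `PA` is a domain with `dim PA ≤ dim S < ∞` (numerical coincidence);
* an element `θA : PA` which is not nilpotent modulo `ϖ`, an element `θB : PB`, and the
  comparison modulo `ϖ`: if `θB` is nilpotent on `MB/ϖ` then `θA` is nilpotent on `MA/ϖ`
  (this is what the identification `MA/ϖ ≅ MB/ϖ` of the patched modules gives);
* an element `ω : PB` with `ω ≡ u θB (mod ϖ)`, `u` a unit, and a set `Nent ⊆ PB` (the entries of
  the monodromy matrix at `q`) such that every prime of `PB` in the support of `MB` not containing `ϖ`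
  contains `Nent` or `ω` (a Cayley–Hamilton identity in the unipotent local ring).

Conclusion: for every prime `𝔞` of `S` there is a prime `𝔮` of `PB` over `𝔞` in the support of
`MB` which contains `Nent`: a point of the support of `MB/𝔞MB` at which the representation is
unramified at `q`.

No Cohen–Macaulay or depth theory is used, and dimension theory enters only through
`annihilator_eq_bot_of_ringKrullDim_le`.
-/
import Mathlib
import Fermat.Agent.S43lib.IA.Dim

set_option autoImplicit false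
set_option linter.unusedSectionVars false

namespace Fermat.Agent.S43lib.IA

open Ideal

section NilMod

variable {S P M : Type*} [CommRing S] [CommRing P] [Algebra S P] [AddCommGroup M] [Module S M]
  [Module P M] [IsScalarTower S P M]

/-- `t` kills `M/ϖM`. -/
def KillsMod (ϖ : S) (t : P) (M : Type*) [AddCommGroup M] [Module S M] [Module P M] : Prop :=
  ∀ m : M, ∃ m' : M, t • m = ϖ • m'

/-- The annihilator of `M/ϖM` in `P`, as an ideal. -/
def annMod (ϖ : S) (P M : Type*) [CommRing P] [Algebra S P] [AddCommGroup M] [Module S M]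
    [Module P M] [IsScalarTower S P M] : Ideal P where
  carrier := {t | KillsMod ϖ t M}
  zero_mem' := fun m => ⟨0, by simp⟩
  add_mem' := by
    intro a b ha hb m
    obtain ⟨m₁, h₁⟩ := ha m
    obtain ⟨m₂, h₂⟩ := hb m
    exact ⟨m₁ + m₂, by rw [add_smul, h₁, h₂, smul_add]⟩
  smul_mem' := by
    intro c t ht m
    obtain ⟨m₁, h₁⟩ := ht m
    refine ⟨c • m₁, ?_⟩
    rw [smul_eq_mul, mul_smul, h₁, ← algebraMap_smul P ϖ m₁, ← algebraMap_smul P ϖ (c • m₁),
      smul_smul, smul_smul, mul_comm]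

theorem mem_annMod {ϖ : S} {t : P} : t ∈ annMod ϖ P M ↔ KillsMod ϖ t M := Iff.rfl

theorem algebraMap_mem_annMod (ϖ : S) : algebraMap S P ϖ ∈ annMod ϖ P M :=
  fun m => ⟨m, by rw [algebraMap_smul]⟩

theorem annihilator_le_annMod (ϖ : S) : Module.annihilator P M ≤ annMod ϖ P M :=
  fun t ht m => ⟨0, by rw [Module.mem_annihilator.mp ht m, smul_zero]⟩

/-- If `M` is a finitely generated faithful `P`-module and `t ^ n` kills `M/ϖM`, then `t` is
nilpotent modulo `ϖ`. -/
theorem exists_pow_mem_span_of_killsMod [Module.Finite P M]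
    (hann : Module.annihilator P M = ⊥) (ϖ : S) (t : P) (ht : KillsMod ϖ t M) :
    ∃ d : ℕ, t ^ d ∈ Ideal.span {algebraMap S P ϖ} := by
  classical
  set I : Ideal P := Ideal.span {algebraMap S P ϖ} with hI
  have hrange : LinearMap.range (Algebra.lsmul P P M t) ≤ I • (⊤ : Submodule P M) := by
    rintro _ ⟨m, rfl⟩
    obtain ⟨m', hm'⟩ := ht m
    show t • m ∈ I • (⊤ : Submodule P M)
    rw [hm', ← algebraMap_smul P ϖ m']
    exact Submodule.smul_mem_smul (Ideal.subset_span (Set.mem_singleton _)) Submodule.mem_top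
  obtain ⟨p, hp, -, hcoeff, hp0⟩ :=
    LinearMap.exists_monic_and_natDegree_eq_and_coeff_mem_pow_and_aeval_eq_zero P
      (Algebra.lsmul P P M t) I hrange
  have h1 : Polynomial.aeval (Algebra.lsmul P P M t) p
      = Algebra.lsmul P P M (Polynomial.aeval t p) :=
    Polynomial.aeval_algHom_apply (Algebra.lsmul P P M) t p
  have h2 : Polynomial.aeval t p ∈ Module.annihilator P M := by
    rw [Module.mem_annihilator]
    intro m
    have := congrArg (fun f : Module.End P M => f m) hp0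
    simp only [h1, LinearMap.zero_apply] at this
    simpa using this
  rw [hann, Ideal.mem_bot] at h2
  refine ⟨p.natDegree, ?_⟩
  -- `t ^ deg = - ∑_{k < deg} coeff k * t ^ k ∈ I`
  have h3 : t ^ p.natDegree = - ∑ k ∈ Finset.range p.natDegree, p.coeff k * t ^ k := by
    have := h2
    rw [Polynomial.aeval_eq_sum_range, Finset.sum_range_succ, hp.coeff_natDegree, one_smul] at this
    rw [eq_neg_iff_add_eq_zero, add_comm]
    simpa [Algebra.smul_def] using this
  rw [h3]
  refine I.neg_mem (I.sum_mem fun k hk => ?_)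
  have hk' : k < p.natDegree := Finset.mem_range.mp hk
  have : p.coeff k ∈ I := by
    have := hcoeff k
    exact Ideal.pow_le_self (by omega) this
  exact I.mul_mem_right _ this

end NilMod

section Main

variable {S PA PB MA MB : Type*} [CommRing S] [IsDomain S]
  [CommRing PA] [IsDomain PA] [Algebra S PA]
  [CommRing PB] [Algebra S PB]
  [AddCommGroup MA] [Module S MA] [Module PA MA] [IsScalarTower S PA MA]
  [Module.Finite S MA] [FaithfulSMul S MA]
  [AddCommGroup MB] [Module S MB] [Module PB MB] [IsScalarTower S PB MB]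
  [Module.Finite S MB] [Module.IsTorsionFree S MB]

/-- In `PB ⧸ Ann(MB)` nonzero elements of `S` are nonzerodivisors (as `MB` is torsion-free),
hence they avoid all minimal primes over the annihilator. -/
theorem algebraMap_notMem_of_mem_minimalPrimes {𝔟 : Ideal PB}
    (h𝔟 : 𝔟 ∈ (Module.annihilator PB MB).minimalPrimes) {s : S} (hs : s ≠ 0) :
    algebraMap S PB s ∉ 𝔟 := by
  set J := Module.annihilator PB MB with hJ
  rw [Ideal.minimalPrimes_eq_comap] at h𝔟
  obtain ⟨𝔟', h𝔟', rfl⟩ := h𝔟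
  intro hmem
  rw [Ideal.mem_comap] at hmem
  refine Set.disjoint_left.mp (Ideal.disjoint_nonZeroDivisors_of_mem_minimalPrimes h𝔟') hmem ?_
  rw [SetLike.mem_coe, mem_nonZeroDivisors_iff_right]
  intro x hx
  obtain ⟨t, rfl⟩ := Ideal.Quotient.mk_surjective x
  rw [← map_mul, Ideal.Quotient.eq_zero_iff_mem, hJ, Module.mem_annihilator] at hx
  rw [Ideal.Quotient.eq_zero_iff_mem, hJ, Module.mem_annihilator]
  intro m
  have h := hx m
  rw [mul_comm, mul_smul, algebraMap_smul] at h
  exact (smul_eq_zero_iff_right hs).mp h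

/-- Integrality of `PB ⧸ K` over `S` for every ideal `K` containing the annihilator. -/
theorem isIntegral_quotient_of_annihilator_le {K : Ideal PB}
    (hK : Module.annihilator PB MB ≤ K) : Algebra.IsIntegral S (PB ⧸ K) := by
  refine ⟨fun x => ?_⟩
  obtain ⟨t, rfl⟩ := Ideal.Quotient.mk_surjective x
  obtain ⟨p, hp, hpt⟩ := exists_monic_aeval_mem_annihilator (S := S) (P := PB) (M := MB) t
  refine ⟨p, hp, ?_⟩
  have : Polynomial.eval₂ (algebraMap S (PB ⧸ K)) (Ideal.Quotient.mk K t) p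
      = Ideal.Quotient.mk K (Polynomial.aeval t p) := by
    rw [Polynomial.aeval_def, Polynomial.hom_eval₂]
    rfl
  rw [this, Ideal.Quotient.eq_zero_iff_mem]
  exact hK hpt

/-- **Abstract Ihara avoidance.** See the header of this file. -/
theorem exists_prime_of_iharaAvoidance
    (ϖ : S)
    (hS : ringKrullDim S ≠ ⊤) (hdim : ringKrullDim PA ≤ ringKrullDim S)
    (θA : PA) (θB ω u : PB) (hu : IsUnit u)
    (hθA : ∀ n : ℕ, θA ^ n ∉ Ideal.span {algebraMap S PA ϖ})
    (hω : ω - u * θB ∈ Ideal.span {algebraMap S PB ϖ})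
    (hcomp : (∃ n : ℕ, KillsMod ϖ (θB ^ n) MB) → ∃ n : ℕ, KillsMod ϖ (θA ^ n) MA)
    (Nent : Set PB)
    (hF3 : ∀ 𝔟 : Ideal PB, 𝔟.IsPrime → Module.annihilator PB MB ≤ 𝔟 →
      algebraMap S PB ϖ ∉ 𝔟 → Nent ⊆ 𝔟 ∨ ω ∈ 𝔟)
    (hϖ : ϖ ≠ 0)
    (𝔞 : Ideal S) [𝔞.IsPrime] :
    ∃ 𝔮 : Ideal PB, 𝔮.IsPrime ∧ 𝔮.comap (algebraMap S PB) = 𝔞 ∧
      Module.annihilator PB MB ≤ 𝔮 ∧ Nent ⊆ 𝔮 := by
  classical
  -- Step A: `MA` is a faithful `PA`-module.
  have hS' : ringKrullDim S ≠ ⊥ := fun h => by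
    have := ringKrullDim_nonneg_of_nontrivial (R := S)
    rw [h] at this
    exact absurd this (by simp)
  have hannA : Module.annihilator PA MA = ⊥ :=
    annihilator_eq_bot_of_ringKrullDim_le (S := S) (P := PA) (M := MA) hS hS' hdim
  have : Module.Finite PA MA := Module.Finite.of_restrictScalars_finite S PA MA
  -- Step B/C: `θB` is not nilpotent on `MB/ϖ`.
  have hB : ¬ ∃ n : ℕ, KillsMod ϖ (θB ^ n) MB := by
    intro h
    obtain ⟨n, hn⟩ := hcomp h
    obtain ⟨d, hd⟩ := exists_pow_mem_span_of_killsMod hannA ϖ (θA ^ n) hn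
    rw [← pow_mul] at hd
    exact hθA _ hd
  -- Step D: a prime `𝔓 ⊇ Ann(MB/ϖ)` avoiding the powers of `θB`.
  have hdisj : Disjoint ((annMod ϖ PB MB : Ideal PB) : Set PB) (Submonoid.powers θB) := by
    rw [Set.disjoint_left]
    rintro t ht ⟨n, rfl⟩
    exact hB ⟨n, ht⟩
  obtain ⟨𝔓, h𝔓prime, h𝔓le, h𝔓disj⟩ := Ideal.exists_le_prime_disjoint _ _ hdisj
  have := h𝔓prime
  have hθ𝔓 : θB ∉ 𝔓 := fun h =>
    Set.disjoint_left.mp h𝔓disj h (Submonoid.mem_powers θB)
  have hϖ𝔓 : algebraMap S PB ϖ ∈ 𝔓 := h𝔓le (algebraMap_mem_annMod ϖ)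
  have hJ𝔓 : Module.annihilator PB MB ≤ 𝔓 := (annihilator_le_annMod ϖ).trans h𝔓le
  -- Step E: a minimal prime `𝔟 ⊆ 𝔓` of the support.
  obtain ⟨𝔟, h𝔟min, h𝔟𝔓⟩ := Ideal.exists_minimalPrimes_le hJ𝔓
  have : 𝔟.IsPrime := h𝔟min.1.1
  have h𝔟J : Module.annihilator PB MB ≤ 𝔟 := h𝔟min.1.2
  -- Step F/G: `𝔟` has characteristic zero, hence contains `Nent`.
  have hN : Nent ⊆ 𝔟 := by
    rcases hF3 𝔟 inferInstance h𝔟J (algebraMap_notMem_of_mem_minimalPrimes h𝔟min hϖ) with h | h
    · exact h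
    · exfalso
      have h1 : ω - u * θB ∈ 𝔓 :=
        (Ideal.span_singleton_le_iff_mem _ |>.mpr hϖ𝔓) hω
      have h2 : u * θB ∈ 𝔓 := by
        have := 𝔓.sub_mem (h𝔟𝔓 h) h1
        simpa using this
      rcases h𝔓prime.mem_or_mem h2 with h3 | h3
      · exact h𝔓prime.ne_top (Ideal.eq_top_of_isUnit_mem _ h3 hu)
      · exact hθ𝔓 h3
  -- Step H: lying over along `S ↪ PB ⧸ 𝔟`.
  have : Algebra.IsIntegral S (PB ⧸ 𝔟) := isIntegral_quotient_of_annihilator_le (MB := MB) h𝔟J
  obtain ⟨Q, -, hQprime, hQ⟩ := Ideal.exists_ideal_over_prime_of_isIntegral (R := S)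
    (S := PB ⧸ 𝔟) 𝔞 (⊥ : Ideal (PB ⧸ 𝔟)) (by
      intro s hs
      rw [Ideal.mem_comap, Ideal.mem_bot] at hs
      have hs' : algebraMap S PB s ∈ 𝔟 := by
        rw [← Ideal.Quotient.eq_zero_iff_mem]
        exact hs
      by_contra hne
      have hs0 : s ≠ 0 := fun h0 => hne (h0 ▸ 𝔞.zero_mem)
      exact algebraMap_notMem_of_mem_minimalPrimes h𝔟min hs0 hs')
  have := hQprime
  refine ⟨Q.comap (Ideal.Quotient.mk 𝔟), inferInstance, ?_, ?_, ?_⟩
  · rw [← hQ, Ideal.comap_comap]
    rfl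
  · intro t ht
    rw [Ideal.mem_comap, Ideal.Quotient.eq_zero_iff_mem.mpr (h𝔟J ht)]
    exact Q.zero_mem
  · intro t ht
    show t ∈ Q.comap (Ideal.Quotient.mk 𝔟)
    rw [Ideal.mem_comap, Ideal.Quotient.eq_zero_iff_mem.mpr (hN ht)]
    exact Q.zero_mem

end Main

end Fermat.Agent.S43lib.IA
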