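/-
S43lib / IA / BlockDefs (helper1).

The vocabulary of the Ihara-avoidance block in its ONE-RING form.

* `𝒪` is the coefficient ring (a complete discrete valuation ring with uniformiser `ϖ`, residue
  characteristic odd), `T` is the finite set of auxiliary primes (the odd primes of the minimal level),
  `h` is the number of free variables.
* `P = 𝒪⟦X_{r,Φ,i,j}, X_{r,Σ,i,j} (r ∈ T, i,j ∈ {0,1}); z_1,…,z_h⟧` is a plain power series ring;
  over it live the universal matrices `Φ_r = φ₀(r) + (X_{r,Φ,i,j})` and `Σ_r = 1 + (X_{r,Σ,i,j})`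
  (`Φ_r` = image of a Frobenius lift at `r`, `Σ_r` = image of a generator of tame inertia at `r`).
* `relsA D r` : the relations of type `(χ_r, χ_r⁻¹)` at `r`:
  `det Φ_r = d₀`, `det Σ_r = 1`, `tr Σ_r = ζ_r + ζ_r⁻¹`, `Φ_r Σ_r = Σ_r Φ_r`.
* `relsB D r` : the unipotent relations at `r`:
  `det Φ_r = d₀`, `det Σ_r = 1`, `tr Σ_r = 2`, `Φ_r (Σ_r − 1) = r · (Σ_r − 1) Φ_r`.
* `monodromyEntries r` : the four entries of `Σ_r − 1`.
-/
import Mathlib

set_option autoImplicit false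

namespace Fermat.Agent.S43lib.IA

open MvPowerSeries

/-- The variables of `P`: for each `r : T` the entries of `Φ_r − φ₀` (tag `false`) and the entries of
`Σ_r − 1` (tag `true`), and `h` free variables. -/
abbrev Var (T : Type) (h : ℕ) : Type := (T × Bool × Fin 2 × Fin 2) ⊕ Fin h

/-- The local datum at an auxiliary prime `r`: the scalar `φ₀` (a lift of `ρ̄(Frob_r)`), the value
`d₀` of the fixed determinant at `Frob_r`, the image `rr` of the integer `r` in `𝒪`, and the value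
`ζ = χ_r(σ_r)` of the auxiliary character at the chosen generator of tame inertia. -/
structure LocalDatum (𝒪 : Type*) [CommRing 𝒪] (ϖ : 𝒪) where
  /-- the lift of the residual scalar -/
  φ₀ : 𝒪ˣ
  /-- the determinant of Frobenius -/
  d₀ : 𝒪
  /-- the image of the prime `r` in `𝒪` -/
  rr : 𝒪
  /-- the value of the auxiliary character at the generator of tame inertia -/
  ζ : 𝒪ˣ
  hd : d₀ - (φ₀ : 𝒪) ^ 2 ∈ Ideal.span {ϖ}
  hr : rr - 1 ∈ Ideal.span {ϖ}
  hr1 : rr ≠ 1
  hζ : (ζ : 𝒪) - 1 ∈ Ideal.span {ϖ}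
  hζ2 : (ζ : 𝒪) ^ 2 ≠ 1

variable {𝒪 : Type*} [CommRing 𝒪] {ϖ : 𝒪} {T : Type} {h : ℕ}

/-- The universal Frobenius matrix at `r`. -/
noncomputable def PhiMat (D : T → LocalDatum 𝒪 ϖ) (r : T) :
    Matrix (Fin 2) (Fin 2) (MvPowerSeries (Var T h) 𝒪) :=
  Matrix.of fun i j =>
    (if i = j then C (((D r).φ₀ : 𝒪ˣ) : 𝒪) else 0) + X (Sum.inl (r, false, i, j))

/-- The universal tame inertia matrix at `r`. -/
noncomputable def SigMat (𝒪 : Type*) [CommRing 𝒪] {T : Type} (h : ℕ) (r : T) :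
    Matrix (Fin 2) (Fin 2) (MvPowerSeries (Var T h) 𝒪) :=
  Matrix.of fun i j => (if i = j then 1 else 0) + X (Sum.inl (r, true, i, j))

/-- The entries of a `2 × 2` matrix, as a set. -/
def entrySet {R : Type*} (A : Matrix (Fin 2) (Fin 2) R) : Set R :=
  Set.range fun ij : Fin 2 × Fin 2 => A ij.1 ij.2

/-- The relations common to both types: fixed determinants. -/
noncomputable def relsCommon (D : T → LocalDatum 𝒪 ϖ) (r : T) :
    Set (MvPowerSeries (Var T h) 𝒪) :=
  {(PhiMat (h := h) D r).det - C (D r).d₀, (SigMat 𝒪 h r).det - 1}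

/-- The relations of type `(χ, χ⁻¹)` at `r`. -/
noncomputable def relsA (D : T → LocalDatum 𝒪 ϖ) (r : T) : Set (MvPowerSeries (Var T h) 𝒪) :=
  relsCommon D r ∪ {(SigMat 𝒪 h r).trace - C (((D r).ζ : 𝒪) + (((D r).ζ⁻¹ : 𝒪ˣ) : 𝒪))} ∪
    entrySet (PhiMat D r * SigMat 𝒪 h r - SigMat 𝒪 h r * PhiMat D r)

/-- The unipotent relations at `r`. -/
noncomputable def relsB (D : T → LocalDatum 𝒪 ϖ) (r : T) : Set (MvPowerSeries (Var T h) 𝒪) :=
  relsCommon D r ∪ {(SigMat 𝒪 h r).trace - 2} ∪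
    entrySet (PhiMat D r * (SigMat 𝒪 h r - 1) -
      (C (D r).rr : MvPowerSeries (Var T h) 𝒪) • ((SigMat 𝒪 h r - 1) * PhiMat D r))

/-- The entries of the monodromy matrix `Σ_r − 1`. -/
noncomputable def monodromyEntries (𝒪 : Type*) [CommRing 𝒪] {T : Type} (h : ℕ) (r : T) :
    Set (MvPowerSeries (Var T h) 𝒪) :=
  entrySet (SigMat 𝒪 h r - 1)

end Fermat.Agent.S43lib.IA
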