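/-
S43lib / IA / Block (helper1).

**The Ihara-avoidance block (B4 + B5), ONE-RING form**, as requested by the chief architect:
everything lives over the plain power series ring `P = 𝒪⟦Var T h⟧` of `BlockDefs`; the patched
modules `MA` (type `(χ_r, χ_r⁻¹)` at all `r ∈ T`) and `MB` (unipotent type at all `r ∈ T`) are
`P`-modules on which the relations `relsA`, resp. `relsB`, act as zero; the ring
`S = 𝒪⟦y_1,…,y_m⟧` of patching variables acts on `MA` through an `𝒪`-algebra map `sA : S → P` and on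
`MB` through `sB : S → P` (the two specialisations of the patched structure map; no relation between
them is needed), and both modules are free over `S` (stated without instances); the comparison modulo `ϖ` is the inclusion
`Ann_P(MB/ϖ) ⊆ Ann_P(MA/ϖ)` (a consequence of any `P`-linear isomorphism `MA/ϖ ≃ MB/ϖ`).

Numerical coincidence: `3 |T| + h ≤ m`.

Conclusion: above every prime `𝔞` of `S` there is a prime `𝔮` of `P` in the support of `MB` at which
the monodromy matrices `Σ_r − 1` vanish for ALL `r ∈ T`.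
-/
import Mathlib
import Fermat.Agent.S43lib.IA.BlockDefs
import Fermat.Agent.S43lib.IA.Abstract

set_option autoImplicit false

namespace Fermat.Agent.S43lib.IA

open MvPowerSeries

universe u

/-- **IABlock** (statement of record for the blocks B4 + B5). -/
def IABlock : Prop :=
  ∀ (𝒪 : Type u) [CommRing 𝒪] [IsDomain 𝒪] [IsLocalRing 𝒪] [IsNoetherianRing 𝒪]
    [IsAdicComplete (IsLocalRing.maximalIdeal 𝒪) 𝒪]
    (ϖ : 𝒪) (_hϖ0 : ϖ ≠ 0) (_hϖ : IsLocalRing.maximalIdeal 𝒪 = Ideal.span {ϖ})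
    (_h2 : IsUnit (2 : 𝒪))
    (T : Type) [Fintype T] [DecidableEq T] (h m : ℕ) (_hm : 3 * Fintype.card T + h ≤ m)
    (D : T → LocalDatum 𝒪 ϖ)
    (sA sB : MvPowerSeries (Fin m) 𝒪 →ₐ[𝒪] MvPowerSeries (Var T h) 𝒪)
    (MA MB : Type u) [AddCommGroup MA] [Module (MvPowerSeries (Var T h) 𝒪) MA]
    [AddCommGroup MB] [Module (MvPowerSeries (Var T h) 𝒪) MB]
    (_hA : ∀ r : T, ∀ t ∈ relsA (h := h) D r, ∀ x : MA, t • x = 0)
    (_hB : ∀ r : T, ∀ t ∈ relsB (h := h) D r, ∀ x : MB, t • x = 0)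
    (dA dB : ℕ) (_hdA : 0 < dA)
    (_hfreeA : ∃ b : Fin dA → MA, ∀ x : MA,
      ∃! c : Fin dA → MvPowerSeries (Fin m) 𝒪, x = ∑ i, sA (c i) • b i)
    (_hfreeB : ∃ b : Fin dB → MB, ∀ x : MB,
      ∃! c : Fin dB → MvPowerSeries (Fin m) 𝒪, x = ∑ i, sB (c i) • b i)
    (_hcomp : ∀ t : MvPowerSeries (Var T h) 𝒪,
      (∀ x : MB, ∃ x' : MB, t • x = (C ϖ : MvPowerSeries (Var T h) 𝒪) • x') →
        ∀ x : MA, ∃ x' : MA, t • x = (C ϖ : MvPowerSeries (Var T h) 𝒪) • x')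
    (𝔞 : Ideal (MvPowerSeries (Fin m) 𝒪)) [𝔞.IsPrime],
    ∃ 𝔮 : Ideal (MvPowerSeries (Var T h) 𝒪), 𝔮.IsPrime ∧ 𝔮.comap sB.toRingHom = 𝔞 ∧
      Module.annihilator (MvPowerSeries (Var T h) 𝒪) MB ≤ 𝔮 ∧
      ∀ r : T, monodromyEntries 𝒪 h r ⊆ (𝔮 : Set (MvPowerSeries (Var T h) 𝒪))

end Fermat.Agent.S43lib.IA
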