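/-
S43lib / IA / OneRing (helper1).

The abstract Ihara-avoidance theorem in ONE-RING form: `PA = P ⧸ IA`, `PB = P`; the ring `S` acts on
`MB` through the algebra structure `S → P` and on `MA` through a second ring homomorphism
`sA : S → P` (in the application the two are congruent modulo `ϖ`, but this is not needed here).
-/
import Mathlib
import Fermat.Agent.S43lib.IA.Abstract

set_option autoImplicit false
set_option linter.unusedSectionVars false
set_option linter.style.haveILetI false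

namespace Fermat.Agent.S43lib.IA

open Ideal

/-- A copy of `P ⧸ I` which inherits no scalar action from `P` (so that it can be made an algebra
over `S` through a map different from the structure map of `P`). -/
def QuotCopy {P : Type*} [CommRing P] (I : Ideal P) : Type _ := P ⧸ I

instance {P : Type*} [CommRing P] (I : Ideal P) : CommRing (QuotCopy I) :=
  inferInstanceAs (CommRing (P ⧸ I))

/-- The quotient map to the copy. -/
def QuotCopy.mk {P : Type*} [CommRing P] (I : Ideal P) : P →+* QuotCopy I := Ideal.Quotient.mk I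

variable {S P MA MB : Type*} [CommRing S] [IsDomain S] [CommRing P] [Algebra S P]
  [AddCommGroup MA] [Module S MA] [Module P MA]
  [Module.Finite S MA] [FaithfulSMul S MA]
  [AddCommGroup MB] [Module S MB] [Module P MB] [IsScalarTower S P MB]
  [Module.Finite S MB] [Module.IsTorsionFree S MB]

/-- **Abstract Ihara avoidance, one-ring form.** -/
theorem exists_prime_of_iharaAvoidance_oneRing
    (sA : S →+* P) (hsA : ∀ (a : S) (x : MA), a • x = sA a • x)
    (IA : Ideal P) [hdom : IsDomain (P ⧸ IA)]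
    (hIA : ∀ t ∈ IA, ∀ x : MA, t • x = 0)
    (ϖ : S) (hϖ : ϖ ≠ 0) (hϖA : sA ϖ = algebraMap S P ϖ)
    (hS : ringKrullDim S ≠ ⊤) (hdim : ringKrullDim (P ⧸ IA) ≤ ringKrullDim S)
    (θ ω u : P) (hu : IsUnit u)
    (hθ : ∀ n : ℕ, (Ideal.Quotient.mk IA θ) ^ n ∉
      Ideal.span {Ideal.Quotient.mk IA (algebraMap S P ϖ)})
    (hω : ω - u * θ ∈ Ideal.span {algebraMap S P ϖ})
    (hcomp : ∀ t : P, (∀ x : MB, ∃ x' : MB, t • x = algebraMap S P ϖ • x') →
      ∀ x : MA, ∃ x' : MA, t • x = algebraMap S P ϖ • x')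
    (Nent : Set P)
    (hF3 : ∀ 𝔟 : Ideal P, 𝔟.IsPrime → Module.annihilator P MB ≤ 𝔟 →
      algebraMap S P ϖ ∉ 𝔟 → Nent ⊆ 𝔟 ∨ ω ∈ 𝔟)
    (𝔞 : Ideal S) [𝔞.IsPrime] :
    ∃ 𝔮 : Ideal P, 𝔮.IsPrime ∧ 𝔮.comap (algebraMap S P) = 𝔞 ∧
      Module.annihilator P MB ≤ 𝔮 ∧ Nent ⊆ 𝔮 := by
  have htors : Module.IsTorsionBySet P MA (IA : Set P) := by
    intro x t
    exact hIA t.1 t.2 x
  haveI : IsDomain (QuotCopy IA) := hdom
  letI modA : Module (QuotCopy IA) MA := htors.module
  letI algA : Algebra S (QuotCopy IA) := ((QuotCopy.mk IA).comp sA).toAlgebra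
  have hmk : ∀ (b : P) (x : MA), (QuotCopy.mk IA b) • x = b • x := fun b x => rfl
  have halgA : ∀ a : S, algebraMap S (QuotCopy IA) a = QuotCopy.mk IA (sA a) := fun a => rfl
  haveI : IsScalarTower S (QuotCopy IA) MA := by
    refine ⟨fun a q x => ?_⟩
    obtain ⟨b, rfl⟩ : ∃ b, QuotCopy.mk IA b = q := Ideal.Quotient.mk_surjective q
    rw [Algebra.smul_def, halgA, ← map_mul, hmk, hmk, mul_smul, hsA]
  refine exists_prime_of_iharaAvoidance (S := S) (PA := QuotCopy IA) (PB := P) (MA := MA) (MB := MB)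
    ϖ hS hdim (QuotCopy.mk IA θ) θ ω u hu ?_ hω ?_ Nent hF3 hϖ 𝔞
  · intro n
    rw [halgA, hϖA]
    exact hθ n
  · rintro ⟨n, hn⟩
    refine ⟨n, ?_⟩
    have h1 : ∀ x : MB, ∃ x' : MB, θ ^ n • x = algebraMap S P ϖ • x' := by
      intro x
      obtain ⟨x', hx'⟩ := hn x
      exact ⟨x', by rw [hx', algebraMap_smul]⟩
    intro x
    obtain ⟨x', hx'⟩ := hcomp _ h1 x
    refine ⟨x', ?_⟩
    rw [← map_pow, hmk, hx', hsA, hϖA]

end Fermat.Agent.S43lib.IA
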