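/-
S43lib / IA / RingFacts (helper1).

The three ring-theoretic facts about the type-`(χ, χ⁻¹)` quotient `P ⧸ I^A` consumed by the
Ihara-avoidance block, bundled as a `Prop`-valued structure, and small general lemmas used in the
reduction (`BlockCore`): bases from instance-free freeness, the dimension of `𝒪⟦y_1,…,y_m⟧`,
the factorisation `x = unit · ϖ^k` in `𝒪`.
-/
import Mathlib
import Fermat.Agent.S43lib.IA.BlockDefs
import Fermat.Agent.S43lib.Loc.F3

set_option autoImplicit false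

namespace Fermat.Agent.S43lib.IA

open MvPowerSeries

variable {𝒪 : Type*} [CommRing 𝒪] {ϖ : 𝒪} {T : Type} [Fintype T]

/-- The ideal generated by the relations of type `(χ, χ⁻¹)` at all `r ∈ T`. -/
noncomputable def idealA (D : T → LocalDatum 𝒪 ϖ) (h : ℕ) : Ideal (MvPowerSeries (Var T h) 𝒪) :=
  Ideal.span (⋃ r, relsA (h := h) D r)

/-- The ideal generated by the unipotent relations at all `r ∈ T`. -/
noncomputable def idealB (D : T → LocalDatum 𝒪 ϖ) (h : ℕ) : Ideal (MvPowerSeries (Var T h) 𝒪) :=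
  Ideal.span (⋃ r, relsB (h := h) D r)

/-- `θ = ∏_r disc(Φ_r)`. -/
noncomputable def thetaOf (D : T → LocalDatum 𝒪 ϖ) (h : ℕ) : MvPowerSeries (Var T h) 𝒪 :=
  ∏ r, Loc.discOf (PhiMat (h := h) D r)

/-- `ω = ∏_r ω_r`, `ω_r = r tr(Φ_r)² − (1 + r)² det Φ_r`. -/
noncomputable def omegaProd (D : T → LocalDatum 𝒪 ϖ) (h : ℕ) : MvPowerSeries (Var T h) 𝒪 :=
  ∏ r, Loc.omegaOf (PhiMat (h := h) D r) (C (D r).rr)

/-- The ring facts on `P ⧸ I^A`. -/
structure RingFacts (D : T → LocalDatum 𝒪 ϖ) (h : ℕ) : Prop where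
  isDomain : IsDomain (MvPowerSeries (Var T h) 𝒪 ⧸ idealA D h)
  dim_le : ringKrullDim (MvPowerSeries (Var T h) 𝒪 ⧸ idealA D h) ≤
    ((3 * Fintype.card T + h + 1 : ℕ) : WithBot ℕ∞)
  theta : ∀ n : ℕ, (Ideal.Quotient.mk (idealA D h) (thetaOf D h)) ^ n ∉
    Ideal.span {Ideal.Quotient.mk (idealA D h) (C ϖ)}

omit [Fintype T] in
theorem omegaOf_sub_discOf_mem (D : T → LocalDatum 𝒪 ϖ) (h : ℕ) (r : T) :
    Loc.omegaOf (PhiMat (h := h) D r) (C (D r).rr) - Loc.discOf (PhiMat (h := h) D r) ∈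
      Ideal.span {(C ϖ : MvPowerSeries (Var T h) 𝒪)} := by
  rw [Loc.omegaOf_sub_discOf]
  refine Ideal.mul_mem_right _ _ ?_
  obtain ⟨c, hc⟩ := Ideal.mem_span_singleton'.mp (D r).hr
  rw [Ideal.mem_span_singleton']
  refine ⟨C c, ?_⟩
  rw [← map_mul, hc, map_sub, map_one]

theorem omegaProd_sub_thetaOf_mem (D : T → LocalDatum 𝒪 ϖ) (h : ℕ) :
    omegaProd D h - 1 * thetaOf D h ∈ Ideal.span {(C ϖ : MvPowerSeries (Var T h) 𝒪)} := by
  rw [one_mul, ← Ideal.Quotient.eq, omegaProd, thetaOf, map_prod, map_prod]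
  refine Finset.prod_congr rfl fun r _ => ?_
  rw [Ideal.Quotient.eq]
  exact omegaOf_sub_discOf_mem D h r

section Basis

variable {S M : Type*} [CommRing S] [AddCommGroup M] [Module S M]

/-- Instance-free freeness gives a basis. -/
theorem nonempty_basis_of_existsUnique {d : ℕ} (b : Fin d → M)
    (hb : ∀ x : M, ∃! c : Fin d → S, x = ∑ i, c i • b i) : Nonempty (Module.Basis (Fin d) S M) := by
  have hbij : Function.Bijective (Fintype.linearCombination S b) := by
    constructor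
    · intro c c' hcc'
      obtain ⟨c₀, -, hc₀⟩ := hb (Fintype.linearCombination S b c)
      have h1 := hc₀ c (by rw [Fintype.linearCombination_apply])
      have h2 := hc₀ c' (by rw [hcc', Fintype.linearCombination_apply])
      rw [h1, h2]
    · intro x
      obtain ⟨c, hc, -⟩ := hb x
      exact ⟨c, by rw [Fintype.linearCombination_apply, hc]⟩
  exact ⟨Module.Basis.ofEquivFun (LinearEquiv.ofBijective _ hbij).symm⟩

end Basis

section Dim

/-- `dim 𝒪 + m ≤ dim 𝒪⟦y_1,…,y_m⟧`. -/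
theorem ringKrullDim_add_le_mvPowerSeries_fin (R : Type*) [CommRing R] (m : ℕ) :
    ringKrullDim R + m ≤ ringKrullDim (MvPowerSeries (Fin m) R) := by
  induction m with
  | zero =>
    simp only [Nat.cast_zero, add_zero]
    exact (ringKrullDim_eq_of_ringEquiv
      (MvPowerSeries.isEmptyEquiv (σ := Fin 0) (R := R)).toRingEquiv).ge
  | succ n ih =>
    rw [ringKrullDim_eq_of_ringEquiv (MvPowerSeries.finSuccEquiv R n).toRingEquiv]
    refine le_trans ?_ ringKrullDim_succ_le_ringKrullDim_powerseries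
    push_cast
    rw [← add_assoc]
    gcongr

/-- A domain with a nonzero nonunit has dimension at least one. -/
theorem one_le_ringKrullDim_of_ne_zero_of_not_isUnit {R : Type*} [CommRing R] [IsDomain R] {x : R}
    (hx0 : x ≠ 0) (hx : ¬ IsUnit x) : 1 ≤ ringKrullDim R := by
  have h1 := ringKrullDim_quotient_succ_le_of_nonZeroDivisor
    (mem_nonZeroDivisors_of_ne_zero hx0)
  have : Nontrivial (R ⧸ Ideal.span {x}) :=
    Ideal.Quotient.nontrivial_iff.mpr (by rwa [ne_eq, Ideal.span_singleton_eq_top])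
  have h0 : (0 : WithBot ℕ∞) ≤ ringKrullDim (R ⧸ Ideal.span {x}) :=
    ringKrullDim_nonneg_of_nontrivial
  calc (1 : WithBot ℕ∞) = 0 + 1 := by simp
    _ ≤ ringKrullDim (R ⧸ Ideal.span {x}) + 1 := by gcongr
    _ ≤ ringKrullDim R := h1

end Dim

end Fermat.Agent.S43lib.IA
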