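/-
S43lib / IA / BlockCore (helper1).

The reduction of `IABlock` to the ring facts `RingFacts` on `P ⧸ I^A`:
`exists_prime_of_iharaAvoidance` with `PA = P ⧸ I^A`, `PB = P`, `θ = ∏ disc Φ_r`,
`ω = ∏ ω_r`, `u = 1`, `Nent = ⋃ entries(Σ_r − 1)`, and `F3`.
-/
import Mathlib
import Fermat.Agent.S43lib.IA.OneRing
import Fermat.Agent.S43lib.IA.RingFacts

set_option autoImplicit false

namespace Fermat.Agent.S43lib.IA

open MvPowerSeries

universe u

section Core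

variable {𝒪 : Type u} [CommRing 𝒪] [IsDomain 𝒪] [IsLocalRing 𝒪] [IsNoetherianRing 𝒪]

/-- In `𝒪` (noetherian local domain with principal maximal ideal `(ϖ)`), every nonzero element is a
unit times a power of `ϖ`. -/
theorem exists_unit_mul_pow_of_ne_zero (ϖ : 𝒪) (hϖ0 : ϖ ≠ 0)
    (hϖ : IsLocalRing.maximalIdeal 𝒪 = Ideal.span {ϖ}) {x : 𝒪} (hx : x ≠ 0) :
    ∃ (k : ℕ) (v : 𝒪ˣ), x = v * ϖ ^ k := by
  have hnf : ¬ IsField 𝒪 := by
    intro hf
    have : IsLocalRing.maximalIdeal 𝒪 = ⊥ := IsLocalRing.isField_iff_maximalIdeal_eq.mp hf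
    rw [hϖ, Ideal.span_singleton_eq_bot] at this
    exact hϖ0 this
  have hprinc : (IsLocalRing.maximalIdeal 𝒪).IsPrincipal := ⟨⟨ϖ, by rw [hϖ]⟩⟩
  have hdvr : IsDiscreteValuationRing 𝒪 :=
    ((IsDiscreteValuationRing.TFAE 𝒪 hnf).out 0 4).mpr hprinc
  have hirr : Irreducible ϖ := (IsDiscreteValuationRing.irreducible_iff_uniformizer ϖ).mpr hϖ
  obtain ⟨k, hk⟩ := IsDiscreteValuationRing.associated_pow_irreducible hx hirr
  obtain ⟨v, hv⟩ := hk.symm
  exact ⟨k, v, by rw [← hv, mul_comm]⟩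

/-- **The reduction.** -/
theorem iaBlock_of_ringFacts [IsAdicComplete (IsLocalRing.maximalIdeal 𝒪) 𝒪]
    (ϖ : 𝒪) (hϖ0 : ϖ ≠ 0) (hϖ : IsLocalRing.maximalIdeal 𝒪 = Ideal.span {ϖ})
    (T : Type) [Fintype T] [DecidableEq T] (h m : ℕ) (hm : 3 * Fintype.card T + h ≤ m)
    (D : T → LocalDatum 𝒪 ϖ) (RF : RingFacts D h)
    (sA sB : MvPowerSeries (Fin m) 𝒪 →ₐ[𝒪] MvPowerSeries (Var T h) 𝒪)
    (MA MB : Type u) [AddCommGroup MA] [Module (MvPowerSeries (Var T h) 𝒪) MA]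
    [AddCommGroup MB] [Module (MvPowerSeries (Var T h) 𝒪) MB]
    (hA : ∀ r : T, ∀ t ∈ relsA (h := h) D r, ∀ x : MA, t • x = 0)
    (hB : ∀ r : T, ∀ t ∈ relsB (h := h) D r, ∀ x : MB, t • x = 0)
    (dA dB : ℕ) (hdA : 0 < dA)
    (hfreeA : ∃ b : Fin dA → MA, ∀ x : MA,
      ∃! c : Fin dA → MvPowerSeries (Fin m) 𝒪, x = ∑ i, sA (c i) • b i)
    (hfreeB : ∃ b : Fin dB → MB, ∀ x : MB,
      ∃! c : Fin dB → MvPowerSeries (Fin m) 𝒪, x = ∑ i, sB (c i) • b i)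
    (hcomp : ∀ t : MvPowerSeries (Var T h) 𝒪,
      (∀ x : MB, ∃ x' : MB, t • x = (C ϖ : MvPowerSeries (Var T h) 𝒪) • x') →
        ∀ x : MA, ∃ x' : MA, t • x = (C ϖ : MvPowerSeries (Var T h) 𝒪) • x')
    (𝔞 : Ideal (MvPowerSeries (Fin m) 𝒪)) [𝔞.IsPrime] :
    ∃ 𝔮 : Ideal (MvPowerSeries (Var T h) 𝒪), 𝔮.IsPrime ∧ 𝔮.comap sB.toRingHom = 𝔞 ∧
      Module.annihilator (MvPowerSeries (Var T h) 𝒪) MB ≤ 𝔮 ∧
      ∀ r : T, monodromyEntries 𝒪 h r ⊆ (𝔮 : Set (MvPowerSeries (Var T h) 𝒪)) := by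
  classical
  haveI : IsDomain (MvPowerSeries (Var T h) 𝒪 ⧸ idealA D h) := RF.isDomain
  haveI : IsDomain (MvPowerSeries (Fin m) 𝒪) := NoZeroDivisors.to_isDomain _
  -- algebra and module structures through `s`
  letI algSP : Algebra (MvPowerSeries (Fin m) 𝒪) (MvPowerSeries (Var T h) 𝒪) :=
    sB.toRingHom.toAlgebra
  letI modSA : Module (MvPowerSeries (Fin m) 𝒪) MA := Module.compHom MA sA.toRingHom
  letI modSB : Module (MvPowerSeries (Fin m) 𝒪) MB := Module.compHom MB sB.toRingHom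
  haveI towB : IsScalarTower (MvPowerSeries (Fin m) 𝒪) (MvPowerSeries (Var T h) 𝒪) MB :=
    ⟨fun a b x => by
      show (sB a * b) • x = sB a • (b • x)
      rw [mul_smul]⟩
  have halg : ∀ a : MvPowerSeries (Fin m) 𝒪,
      algebraMap (MvPowerSeries (Fin m) 𝒪) (MvPowerSeries (Var T h) 𝒪) a = sB a := fun a => rfl
  have hCϖ : algebraMap (MvPowerSeries (Fin m) 𝒪) (MvPowerSeries (Var T h) 𝒪) (C ϖ) = C ϖ := by
    rw [halg, MvPowerSeries.c_eq_algebraMap, MvPowerSeries.c_eq_algebraMap, sB.commutes]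
  have hCϖA : sA.toRingHom (C ϖ) = (C ϖ : MvPowerSeries (Var T h) 𝒪) := by
    show sA (C ϖ) = C ϖ
    rw [MvPowerSeries.c_eq_algebraMap, MvPowerSeries.c_eq_algebraMap, sA.commutes]
  -- bases
  obtain ⟨bA, hbA⟩ := hfreeA
  obtain ⟨bB, hbB⟩ := hfreeB
  obtain ⟨basA⟩ := nonempty_basis_of_existsUnique (S := MvPowerSeries (Fin m) 𝒪) bA hbA
  obtain ⟨basB⟩ := nonempty_basis_of_existsUnique (S := MvPowerSeries (Fin m) 𝒪) bB hbB
  haveI : Module.Free (MvPowerSeries (Fin m) 𝒪) MA := Module.Free.of_basis basA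
  haveI : Module.Free (MvPowerSeries (Fin m) 𝒪) MB := Module.Free.of_basis basB
  haveI : Module.Finite (MvPowerSeries (Fin m) 𝒪) MA := Module.Finite.of_basis basA
  haveI : Module.Finite (MvPowerSeries (Fin m) 𝒪) MB := Module.Finite.of_basis basB
  haveI : Nontrivial MA := by
    haveI : Nonempty (Fin dA) := ⟨⟨0, hdA⟩⟩
    exact basA.repr.symm.injective.nontrivial
  -- the element `ϖ` of `S`
  have hϖS : (C ϖ : MvPowerSeries (Fin m) 𝒪) ≠ 0 := by
    intro h0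
    have := congrArg MvPowerSeries.constantCoeff h0
    rw [MvPowerSeries.constantCoeff_C, map_zero] at this
    exact hϖ0 this
  -- dimensions
  have hϖnu : ¬ IsUnit ϖ := by
    rw [← mem_nonunits_iff, ← IsLocalRing.mem_maximalIdeal, hϖ]
    exact Ideal.mem_span_singleton_self ϖ
  have hdimS : ((m + 1 : ℕ) : WithBot ℕ∞) ≤ ringKrullDim (MvPowerSeries (Fin m) 𝒪) := by
    have h1 := one_le_ringKrullDim_of_ne_zero_of_not_isUnit hϖ0 hϖnu
    have h2 := ringKrullDim_add_le_mvPowerSeries_fin 𝒪 m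
    calc ((m + 1 : ℕ) : WithBot ℕ∞) = 1 + (m : WithBot ℕ∞) := by push_cast; rw [add_comm]
      _ ≤ ringKrullDim 𝒪 + m := by gcongr
      _ ≤ _ := h2
  have hS : ringKrullDim (MvPowerSeries (Fin m) 𝒪) ≠ ⊤ := ringKrullDim_ne_top
  have hdim : ringKrullDim (MvPowerSeries (Var T h) 𝒪 ⧸ idealA D h) ≤
      ringKrullDim (MvPowerSeries (Fin m) 𝒪) := by
    refine RF.dim_le.trans (le_trans ?_ hdimS)
    exact_mod_cast Nat.succ_le_succ hm
  -- `I^A` kills `MA`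
  have hIA : ∀ t ∈ idealA D h, ∀ x : MA, t • x = 0 := by
    intro t ht x
    have hle : idealA D h ≤ Module.annihilator (MvPowerSeries (Var T h) 𝒪) MA := by
      rw [idealA, Ideal.span_le]
      intro t ht
      obtain ⟨r, hr⟩ := Set.mem_iUnion.mp ht
      exact Module.mem_annihilator.mpr (hA r t hr)
    exact Module.mem_annihilator.mp (hle ht) x
  -- `F3`
  have hF3 : ∀ 𝔟 : Ideal (MvPowerSeries (Var T h) 𝒪), 𝔟.IsPrime →
      Module.annihilator (MvPowerSeries (Var T h) 𝒪) MB ≤ 𝔟 →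
      algebraMap (MvPowerSeries (Fin m) 𝒪) (MvPowerSeries (Var T h) 𝒪) (C ϖ) ∉ 𝔟 →
      (⋃ r : T, monodromyEntries 𝒪 h r) ⊆ (𝔟 : Set (MvPowerSeries (Var T h) 𝒪)) ∨
        omegaProd D h ∈ 𝔟 := by
    intro 𝔟 h𝔟 hann hϖ𝔟
    rw [hCϖ] at hϖ𝔟
    haveI := h𝔟
    have hrel : ∀ r : T, ∀ t ∈ relsB (h := h) D r, t ∈ 𝔟 := fun r t ht =>
      hann (Module.mem_annihilator.mpr (hB r t ht))
    have hone : ∀ r : T, (∀ i j, (SigMat 𝒪 h r - 1) i j ∈ 𝔟) ∨
        Loc.omegaOf (PhiMat (h := h) D r) (C (D r).rr) ∈ 𝔟 := by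
      intro r
      refine Loc.entries_mem_or_omega_mem 𝔟 (PhiMat D r) (SigMat 𝒪 h r - 1) (C (D r).rr) ?_ ?_ ?_
      · intro i j
        apply hrel r
        refine Or.inr ⟨(i, j), rfl⟩
      · -- `1 - rr = unit * ϖ ^ k`
        have hne : 1 - (D r).rr ≠ 0 := sub_ne_zero.mpr (Ne.symm (D r).hr1)
        obtain ⟨k, v, hv⟩ := exists_unit_mul_pow_of_ne_zero ϖ hϖ0 hϖ hne
        have e : (1 : MvPowerSeries (Var T h) 𝒪) - C (D r).rr = C (v : 𝒪) * (C ϖ) ^ k := by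
          rw [← map_pow, ← map_mul, ← hv, map_sub, map_one]
        rw [e]
        intro hmem
        rcases h𝔟.mem_or_mem hmem with h1 | h1
        · exact h𝔟.ne_top (Ideal.eq_top_of_isUnit_mem _ h1 (v.isUnit.map _))
        · exact hϖ𝔟 (h𝔟.mem_of_pow_mem k h1)
      · -- `det Φ ≡ d₀`, a unit
        intro hdet
        have h1 : (PhiMat (h := h) D r).det - C (D r).d₀ ∈ 𝔟 := by
          apply hrel r
          exact Or.inl (Or.inl (Or.inl rfl))
        have h2 : (C (D r).d₀ : MvPowerSeries (Var T h) 𝒪) ∈ 𝔟 := by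
          have := 𝔟.sub_mem hdet h1
          simpa using this
        have hu : IsUnit (D r).d₀ := by
          by_contra hnu
          have hm : (D r).d₀ ∈ IsLocalRing.maximalIdeal 𝒪 := hnu
          have hd := (D r).hd
          rw [← hϖ] at hd
          have : ((D r).φ₀ : 𝒪) ^ 2 ∈ IsLocalRing.maximalIdeal 𝒪 := by
            have := (IsLocalRing.maximalIdeal 𝒪).sub_mem hm hd
            simpa using this
          exact (IsLocalRing.mem_maximalIdeal _).mp this (((D r).φ₀.isUnit).pow 2)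
        exact h𝔟.ne_top (Ideal.eq_top_of_isUnit_mem _ h2 (hu.map _))
    by_cases hall : ∀ r : T, ∀ i j, (SigMat 𝒪 h r - 1) i j ∈ 𝔟
    · left
      intro t ht
      obtain ⟨r, hr⟩ := Set.mem_iUnion.mp ht
      obtain ⟨ij, rfl⟩ := hr
      exact hall r ij.1 ij.2
    · right
      push Not at hall
      obtain ⟨r, i, j, hij⟩ := hall
      have hr := (hone r).resolve_left (fun hc => hij (hc i j))
      rw [omegaProd]
      exact Ideal.prod_mem (i := r) 𝔟 (Finset.mem_univ r) hr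
  -- apply the abstract theorem
  obtain ⟨𝔮, h𝔮, hcomap, hann, hN⟩ :=
    exists_prime_of_iharaAvoidance_oneRing (S := MvPowerSeries (Fin m) 𝒪)
      (P := MvPowerSeries (Var T h) 𝒪) (MA := MA) (MB := MB) sA.toRingHom (fun a x => rfl)
      (idealA D h) hIA (C ϖ) hϖS (by rw [hCϖ, hCϖA]) hS hdim
      (thetaOf D h) (omegaProd D h) 1 isUnit_one
      (by rw [hCϖ]; exact RF.theta)
      (by rw [hCϖ]; exact omegaProd_sub_thetaOf_mem D h)
      (by rw [hCϖ]; exact hcomp)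
      (⋃ r : T, monodromyEntries 𝒪 h r) hF3 𝔞
  refine ⟨𝔮, h𝔮, hcomap, hann, fun r => ?_⟩
  exact (Set.subset_iUnion (fun r : T => monodromyEntries 𝒪 h r) r).trans hN

end Core

end Fermat.Agent.S43lib.IA
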