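/-
S43lib / IA / BlockFinal (helper1).

`IABlock` follows from the ring facts on `P ⧸ I^A` (`RingFactsStatement`); the latter is the content
of `S43lib/Loc/**` (domain: tower embedding; dimension: explicit parameters; `θ`: a point of the
special fibre).
-/
import Mathlib
import Fermat.Agent.S43lib.IA.Block
import Fermat.Agent.S43lib.IA.BlockCore

set_option autoImplicit false

namespace Fermat.Agent.S43lib.IA

open MvPowerSeries

universe u

/-- The ring facts, for every coefficient ring and every local datum. -/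
def RingFactsStatement : Prop :=
  ∀ (𝒪 : Type u) [CommRing 𝒪] [IsDomain 𝒪] [IsLocalRing 𝒪] [IsNoetherianRing 𝒪]
    [IsAdicComplete (IsLocalRing.maximalIdeal 𝒪) 𝒪]
    (ϖ : 𝒪) (_hϖ0 : ϖ ≠ 0) (_hϖ : IsLocalRing.maximalIdeal 𝒪 = Ideal.span {ϖ})
    (_h2 : IsUnit (2 : 𝒪))
    (T : Type) [Fintype T] [DecidableEq T] (h : ℕ) (D : T → LocalDatum 𝒪 ϖ), RingFacts D h

theorem iaBlock_of_ringFactsStatement (H : RingFactsStatement.{u}) : IABlock.{u} := by
  intro 𝒪 _ _ _ _ _ ϖ hϖ0 hϖ h2 T _ _ h m hm D sA sB MA MB _ _ _ _ hA hB dA dB hdA hfreeA hfreeB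
    hcomp 𝔞 _
  exact iaBlock_of_ringFacts ϖ hϖ0 hϖ T h m hm D (H 𝒪 ϖ hϖ0 hϖ h2 T h D) sA sB MA MB hA hB dA dB hdA
    hfreeA hfreeB hcomp 𝔞

end Fermat.Agent.S43lib.IA
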