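/-
S43lib / IA / Final (helper1).

**The Ihara-avoidance block holds**: `theorem iaBlock : IABlock`, unconditionally.

The three ring facts on `P ⧸ I^A` are proved in `S43lib/Loc/**`:
* `Loc.isDomain_quot_idealA` (domain; `Loc/Multi.lean`, built on `Loc/Single.lean`),
* `Loc.ringKrullDim_quot_idealA_le` (dimension; `Loc/DimBound.lean`),
* `Loc.theta_pow_notMem` (`θ` is not nilpotent modulo `ϖ`; `Loc/Theta.lean`).
-/
import Mathlib
import Fermat.Agent.S43lib.IA.BlockFinal
import Fermat.Agent.S43lib.Loc.Multi
import Fermat.Agent.S43lib.Loc.Theta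
import Fermat.Agent.S43lib.Loc.DimBound

set_option autoImplicit false
set_option linter.style.haveILetI false

namespace Fermat.Agent.S43lib.IA

universe u

/-- The ring facts hold for every coefficient ring and every local datum. -/
theorem ringFactsStatement_holds : RingFactsStatement.{u} := by
  intro 𝒪 _ _ _ _ _ ϖ hϖ0 hϖ h2 T _ _ h D
  have hdom := Loc.isDomain_quot_idealA ϖ hϖ0 hϖ h2 T h D
  have hne : idealA D h ≠ ⊤ := by
    haveI := hdom
    exact Ideal.Quotient.nontrivial_iff.mp inferInstance
  exact ⟨hdom, Loc.ringKrullDim_quot_idealA_le hϖ h2 h D hne, Loc.theta_pow_notMem hϖ h D⟩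

/-- **The Ihara-avoidance block.** -/
theorem iaBlock : IABlock.{u} :=
  iaBlock_of_ringFactsStatement ringFactsStatement_holds

end Fermat.Agent.S43lib.IA
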